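import Fermat.Agent.S20.Defs
import Fermat.Agent.S24.Basic

/-!
# S20 / chapter G, auxiliary file: the equivariant identification of coset spaces

`Cosets N = SL(2,ℤ) ⧸ Γ₀(N)` (left cosets, from `Fermat/Agent/S24/Basic.lean`) is identified with
`Quo N = 𝒮ℒ ⧸ (Gam N).subgroupOf 𝒮ℒ`, hence with `Fin (psi N)`, in such a way that
`perm N γ` corresponds to the left multiplication by `γ⁻¹`.
-/

set_option autoImplicit false

open UpperHalfPlane ModularForm CongruenceSubgroup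
open scoped MatrixGroups ModularForm Manifold
open Fermat.Agent.S23

namespace Fermat.Agent.S20.GroupAux

/-- The isomorphism `SL(2,ℤ) ≃* 𝒮ℒ`. -/
noncomputable def phi : SL(2, ℤ) ≃* ↥𝒮ℒ :=
  MonoidHom.ofInjective (f := (Matrix.SpecialLinearGroup.mapGL ℝ : SL(2, ℤ) →* GL (Fin 2) ℝ))
    Matrix.SpecialLinearGroup.mapGL_injective

theorem phi_coe (γ : SL(2, ℤ)) :
    ((phi γ : ↥𝒮ℒ) : GL (Fin 2) ℝ) = Matrix.SpecialLinearGroup.mapGL ℝ γ := rfl

theorem phi_eq (γ : SL(2, ℤ)) :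
    phi γ = (⟨Matrix.SpecialLinearGroup.mapGL ℝ γ, ⟨γ, rfl⟩⟩ : ↥𝒮ℒ) := rfl

theorem phi_mem_iff (N : ℕ) (γ : SL(2, ℤ)) :
    phi γ ∈ (Gam N).subgroupOf 𝒮ℒ ↔ γ ∈ CongruenceSubgroup.Gamma0 N := by
  rw [Subgroup.mem_subgroupOf, phi_coe]
  exact Subgroup.mem_map_iff_mem Matrix.SpecialLinearGroup.mapGL_injective

/-- The identification of the two coset spaces. -/
noncomputable def e₀ (N : ℕ) : Fermat.Agent.S24.Cosets N ≃ Quo N :=
  Quotient.congr phi.toEquiv (by
    intro a b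
    change QuotientGroup.leftRel _ a b ↔ QuotientGroup.leftRel _ (phi a) (phi b)
    rw [QuotientGroup.leftRel_apply, QuotientGroup.leftRel_apply, ← map_inv, ← map_mul,
      phi_mem_iff])

theorem e₀_mk (N : ℕ) (a : SL(2, ℤ)) :
    e₀ N (QuotientGroup.mk a) = QuotientGroup.mk (phi a) := rfl

/-- `e₀` is equivariant. -/
theorem e₀_smul (N : ℕ) (γ : SL(2, ℤ)) (x : Fermat.Agent.S24.Cosets N) :
    e₀ N (γ • x) = phi γ • e₀ N x := by
  induction x using QuotientGroup.induction_on with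
  | H a =>
    rw [e₀_mk, MulAction.Quotient.smul_mk, MulAction.Quotient.smul_mk, e₀_mk, smul_eq_mul,
      smul_eq_mul, map_mul]

theorem e₀_symm_smul (N : ℕ) (γ : SL(2, ℤ)) (y : Quo N) :
    (e₀ N).symm (phi γ • y) = γ • (e₀ N).symm y := by
  rw [Equiv.symm_apply_eq, e₀_smul, Equiv.apply_symm_apply]

variable (N : ℕ) [NeZero N]

/-- The identification of the index set `Fin (psi N)` with `SL(2,ℤ) ⧸ Γ₀(N)`. -/
noncomputable def e : Fin (psi N) ≃ Fermat.Agent.S24.Cosets N :=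
  (quoEquiv N).trans (e₀ N).symm

/-- `perm N γ` corresponds to the left multiplication by `γ⁻¹`. -/
theorem e_perm (γ : SL(2, ℤ)) (j : Fin (psi N)) : e N (perm N γ j) = γ⁻¹ • e N j := by
  have h : perm N γ j = (quoEquiv N).symm ((phi γ)⁻¹ • quoEquiv N j) := rfl
  rw [h, e, Equiv.trans_apply, Equiv.trans_apply, Equiv.apply_symm_apply, ← map_inv,
    e₀_symm_smul]

omit [NeZero N] in
theorem psi_eq_cosetCard : psi N = Fermat.Agent.S24.cosetCard N := by
  unfold psi Fermat.Agent.S24.cosetCard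
  exact Nat.card_congr (e₀ N).symm

/-- Fixed points of `perm N γ` correspond to cosets fixed by `γ`. -/
theorem card_fixed_perm (γ : SL(2, ℤ)) :
    (Finset.univ.filter fun j => perm N γ j = j).card =
      Nat.card (MulAction.fixedBy (Fermat.Agent.S24.Cosets N) γ) := by
  rw [← Fintype.card_subtype, ← Nat.card_eq_fintype_card]
  refine Nat.card_congr ((e N).subtypeEquiv fun j => ?_)
  rw [← MulAction.fixedBy_inv, MulAction.mem_fixedBy, ← e_perm, (e N).apply_eq_iff_eq]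

omit [NeZero N] in
/-- The orbit relation of a cyclic subgroup on `Fin (psi N)`. -/
theorem orbitRel_perm_iff (σ : Equiv.Perm (Fin (psi N))) (a b : Fin (psi N)) :
    MulAction.orbitRel (Subgroup.zpowers σ) (Fin (psi N)) a b ↔ ∃ k : ℤ, (σ ^ k) b = a := by
  rw [MulAction.orbitRel_apply, MulAction.mem_orbit_iff]
  constructor
  · rintro ⟨⟨h, hh⟩, rfl⟩
    obtain ⟨k, rfl⟩ := Subgroup.mem_zpowers_iff.mp hh
    exact ⟨k, rfl⟩
  · rintro ⟨k, rfl⟩
    exact ⟨⟨σ ^ k, Subgroup.zpow_mem_zpowers σ k⟩, rfl⟩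

omit [NeZero N] in
/-- The orbit relation of a cyclic subgroup on the cosets. -/
theorem orbitRel_cosets_iff (γ : SL(2, ℤ)) (x y : Fermat.Agent.S24.Cosets N) :
    MulAction.orbitRel (Subgroup.zpowers γ) (Fermat.Agent.S24.Cosets N) x y ↔
      ∃ k : ℤ, γ ^ k • y = x := by
  rw [MulAction.orbitRel_apply, MulAction.mem_orbit_iff]
  constructor
  · rintro ⟨⟨h, hh⟩, rfl⟩
    obtain ⟨k, rfl⟩ := Subgroup.mem_zpowers_iff.mp hh
    exact ⟨k, rfl⟩
  · rintro ⟨k, rfl⟩
    exact ⟨⟨γ ^ k, Subgroup.zpow_mem_zpowers γ k⟩, rfl⟩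

/-- Powers of `perm N γ` correspond to the left multiplications by powers of `γ⁻¹`. -/
theorem e_perm_zpow (γ : SL(2, ℤ)) (k : ℤ) (j : Fin (psi N)) :
    e N ((perm N γ ^ k) j) = γ ^ (-k) • e N j := by
  have hinv : ∀ i : Fin (psi N), e N ((perm N γ)⁻¹ i) = γ • e N i := by
    intro i
    have h := e_perm N γ ((perm N γ)⁻¹ i)
    rw [show perm N γ ((perm N γ)⁻¹ i) = i from (perm N γ).apply_symm_apply i] at h
    rw [h, smul_inv_smul]
  induction k using Int.induction_on generalizing j with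
  | zero => simp
  | succ n ih =>
    rw [zpow_add_one, Equiv.Perm.mul_apply, ih, e_perm, smul_smul, ← zpow_sub_one]
    congr 2
    ring
  | pred n ih =>
    rw [zpow_sub_one, Equiv.Perm.mul_apply, ih, hinv, smul_smul, ← zpow_add_one]
    congr 2
    ring

/-- The orbits of `perm N γ` on `Fin (psi N)` correspond to the orbits of `γ` on the cosets. -/
theorem numOrbits_perm (γ : SL(2, ℤ)) :
    numOrbits (perm N γ) = Fermat.Agent.S24.orbCard N γ := by
  unfold numOrbits Fermat.Agent.S24.orbCard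
  refine Nat.card_congr (Quotient.congr (e N) fun a b => ?_)
  rw [orbitRel_perm_iff, orbitRel_cosets_iff]
  constructor
  · rintro ⟨k, rfl⟩
    exact ⟨-k, by rw [e_perm_zpow]⟩
  · rintro ⟨k, hk⟩
    refine ⟨-k, (e N).injective ?_⟩
    rw [e_perm_zpow, neg_neg, hk]

end Fermat.Agent.S20.GroupAux
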